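import Fermat.Agent.Switch.Covariants.Line

/-!
# Derivatives of Klein's degree 12 form along the line

The identities are large `ring` proofs, elaborated one at a time to bound the memory.
-/

set_option autoImplicit false
set_option Elab.async false

namespace FermatAgent.Switch

section Ring

variable {R : Type*} [CommRing R] (u v l m : R)

local notation "U" => lineU u v l m
local notation "V" => lineV u v l m
local notation "cf" D:max => (D (kleinH u v) (kleinT u v) (kleinF u v ^ 5) l m)
local notation "fu₀" => kleinFu u v
local notation "fv₀" => kleinFv u v

theorem kleinF_line_m : fv₀ * kleinFu U V - fu₀ * kleinFv U V = kleinF u v * cf covDm := by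
  simp only [kleinH, kleinT, kleinF, kleinFu, kleinFv, covDm, lineU, lineV]; ring

theorem kleinF_line_ll :
    u * u * kleinFuu U V
      + u * v * kleinFuv U V
      + v * u * kleinFuv U V
      + v * v * kleinFvv U V =
      kleinF u v * cf covDll := by
  simp only [kleinH, kleinT, kleinF, kleinFu, kleinFv, kleinFuu, kleinFuv, kleinFvv, covDll, lineU,
    lineV]; ring

end Ring

end FermatAgent.Switch
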