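import Fermat.Agent.Switch.Covariants.Line

/-!
# Derivatives of Klein's degree 12 form along the line

The identities are large `ring` proofs, elaborated one at a time to bound the memory.
-/

set_option autoImplicit false
set_option Elab.async false

namespace FermatAgent.Switch

section Ring

variable {R : Type*} [CommRing R] (u v l m : R)

local notation "U" => lineU u v l m
local notation "V" => lineV u v l m
local notation "cf" D:max => (D (kleinH u v) (kleinT u v) (kleinF u v ^ 5) l m)
local notation "fu₀" => kleinFu u v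
local notation "fv₀" => kleinFv u v

theorem kleinF_line_lmm :
    u * fv₀ * fv₀ * kleinFuuu U V
      + u * fv₀ * (-fu₀) * kleinFuuv U V
      + u * (-fu₀) * fv₀ * kleinFuuv U V
      + u * (-fu₀) * (-fu₀) * kleinFuvv U V
      + v * fv₀ * fv₀ * kleinFuuv U V
      + v * fv₀ * (-fu₀) * kleinFuvv U V
      + v * (-fu₀) * fv₀ * kleinFuvv U V
      + v * (-fu₀) * (-fu₀) * kleinFvvv U V =
      kleinF u v * cf covDlmm := by
  simp only [kleinH, kleinT, kleinF, kleinFu, kleinFv, kleinFuuu, kleinFuuv, kleinFuvv, kleinFvvv, covDlmm, lineU,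
    lineV]; ring

theorem kleinF_line_mmm :
    fv₀ * fv₀ * fv₀ * kleinFuuu U V
      + fv₀ * fv₀ * (-fu₀) * kleinFuuv U V
      + fv₀ * (-fu₀) * fv₀ * kleinFuuv U V
      + fv₀ * (-fu₀) * (-fu₀) * kleinFuvv U V
      + (-fu₀) * fv₀ * fv₀ * kleinFuuv U V
      + (-fu₀) * fv₀ * (-fu₀) * kleinFuvv U V
      + (-fu₀) * (-fu₀) * fv₀ * kleinFuvv U V
      + (-fu₀) * (-fu₀) * (-fu₀) * kleinFvvv U V =
      kleinF u v * cf covDmmm := by
  simp only [kleinH, kleinT, kleinF, kleinFu, kleinFv, kleinFuuu, kleinFuuv, kleinFuvv, kleinFvvv, covDmmm, lineU,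
    lineV]; ring

end Ring

end FermatAgent.Switch
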