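import Fermat.Agent.Switch.Covariants.Line

/-!
# Derivatives of Klein's degree 12 form along the line

The identities are large `ring` proofs, elaborated one at a time to bound the memory.
-/

set_option autoImplicit false
set_option Elab.async false

namespace FermatAgent.Switch

section Ring

variable {R : Type*} [CommRing R] (u v l m : R)

local notation "U" => lineU u v l m
local notation "V" => lineV u v l m
local notation "cf" D:max => (D (kleinH u v) (kleinT u v) (kleinF u v ^ 5) l m)
local notation "fu₀" => kleinFu u v
local notation "fv₀" => kleinFv u v

theorem kleinF_line : kleinF U V = kleinF u v * cf covD := by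
  simp only [kleinH, kleinT, kleinF, kleinFu, kleinFv, covD, lineU, lineV]; ring

theorem kleinF_line_l : u * kleinFu U V + v * kleinFv U V = kleinF u v * cf covDl := by
  simp only [kleinH, kleinT, kleinF, kleinFu, kleinFv, covDl, lineU, lineV]; ring

end Ring

end FermatAgent.Switch
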