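import Fermat.Agent.Switch.Forms

/-!
# The line through a point in the direction of the gradient
-/

set_option autoImplicit false

namespace FermatAgent.Switch

section Ring

variable {R : Type*} [CommRing R] (u v l m : R)

/-- The first coordinate of the point `l • w + m • w'`. -/
def lineU : R := l * u + m * kleinFv u v

/-- The second coordinate of the point `l • w + m • w'`. -/
def lineV : R := l * v - m * kleinFu u v

end Ring

end FermatAgent.Switch
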